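import Mathlib.RingTheory.Valuation.RamificationGroup
import Mathlib.Tactic
import Fermat.Prelude.Def_FLTPrelim_Ramification

/-!
# Facts about the inertia group and about integers in a valuation subring
-/

set_option autoImplicit false

namespace Fermat.Agent.S05

variable {K L : Type*} [Field K] [Field L] [Algebra K L]

/-- elements of the inertia group act trivially modulo the maximal ideal -/
theorem inertia_sub_mem (A : ValuationSubring L) {σ : L ≃ₐ[K] L}
    (hσ : σ ∈ A.inertiaSubgroupIn K) {a : L} (ha : a ∈ A) : σ a - a ∈ A.nonunits := by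
  obtain ⟨g, hg, rfl⟩ := Subgroup.mem_map.mp hσ
  have h1 : MulSemiringAction.toRingAut (A.decompositionSubgroup K)
      (IsLocalRing.ResidueField A) g = 1 := MonoidHom.mem_ker.mp hg
  have h2 : g • IsLocalRing.residue A ⟨a, ha⟩ = IsLocalRing.residue A ⟨a, ha⟩ := by
    have := congrArg (fun f => f (IsLocalRing.residue A ⟨a, ha⟩)) h1
    simpa using this
  rw [← IsLocalRing.ResidueField.residue_smul, ← sub_eq_zero, ← map_sub,
    IsLocalRing.residue_eq_zero_iff] at h2
  have h3 := ValuationSubring.coe_mem_nonunits_iff.mpr h2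
  exact h3

/-- an integer is a non-unit of `A` iff it is divisible by the residue characteristic -/
theorem intCast_mem_nonunits_iff (A : ValuationSubring L) {q : ℕ} (hq : q.Prime)
    (hA : A.LiesOverPrime q) (n : ℤ) : (n : L) ∈ A.nonunits ↔ (q : ℤ) ∣ n := by
  have hA' : (q : L) ∈ A.nonunits := hA
  constructor
  · intro hn
    by_contra hd
    have hcop : IsCoprime (q : ℤ) n :=
      (Prime.coprime_iff_not_dvd (Nat.prime_iff_prime_int.mp hq)).mpr hd
    obtain ⟨x, y, hxy⟩ := hcop
    have h1 : (x : L) * (q : L) + (y : L) * (n : L) = 1 := by exact_mod_cast congrArg (Int.cast : ℤ → L) hxy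
    have hmem : (x : L) * (q : L) + (y : L) * (n : L) ∈ A.nonunits := by
      apply add_mem
      · rw [A.mem_nonunits_iff] at hA' ⊢
        rw [map_mul, mul_comm]
        exact mul_lt_one_of_lt_of_le hA' ((A.valuation_le_one_iff _).mpr (intCast_mem A x))
      · rw [A.mem_nonunits_iff] at hn ⊢
        rw [map_mul, mul_comm]
        exact mul_lt_one_of_lt_of_le hn ((A.valuation_le_one_iff _).mpr (intCast_mem A y))
    rw [h1, A.mem_nonunits_iff, map_one] at hmem
    exact lt_irrefl _ hmem
  · rintro ⟨k, rfl⟩
    push_cast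
    rw [A.mem_nonunits_iff] at hA' ⊢
    rw [map_mul]
    exact mul_lt_one_of_lt_of_le hA' ((A.valuation_le_one_iff _).mpr (intCast_mem A k))

end Fermat.Agent.S05
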