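import Mathlib.RingTheory.Valuation.ValuationSubring
import Mathlib.Tactic

/-!
# Abstract interface: a group with "x-coordinate" `ξ` and "2y+a₁x+a₃" `ψ`
for a curve `ψ² = 4ξ³ + Bξ² + 4cξ`.
-/

set_option autoImplicit false

namespace Fermat.Agent.S05

universe u v

/-- Abstract data of the group of points of `ψ² = 4ξ³ + Bξ² + 4cξ`. -/
structure XiData (K : Type u) [Field K] (G : Type v) [AddCommGroup G] : Type (max u v) where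
  ξ : G → K
  ψ : G → K
  B : K
  c : K
  two_ne : (2 : K) ≠ 0
  ξ_neg : ∀ P, ξ (-P) = ξ P
  ψ_neg : ∀ P, ψ (-P) = -ψ P
  ψ_sq : ∀ P, P ≠ 0 → ψ P ^ 2 = 4 * ξ P ^ 3 + B * ξ P ^ 2 + 4 * c * ξ P
  eq_or_neg : ∀ P Q, P ≠ 0 → Q ≠ 0 → ξ P = ξ Q → P = Q ∨ P = -Q
  add_formula : ∀ P Q, P ≠ 0 → Q ≠ 0 → ξ P ≠ ξ Q →
    4 * ξ (P + Q) * (ξ P - ξ Q) ^ 2 =
      (ψ P - ψ Q) ^ 2 - (B + 4 * ξ P + 4 * ξ Q) * (ξ P - ξ Q) ^ 2
  dbl_formula : ∀ P, P ≠ 0 → P + P ≠ 0 → ξ (P + P) * ψ P ^ 2 = (ξ P ^ 2 - c) ^ 2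
  ψ_eq_zero_iff : ∀ P, P ≠ 0 → (P + P = 0 ↔ ψ P = 0)

namespace XiData

variable {K : Type u} [Field K] {G : Type v} [AddCommGroup G] (D : XiData K G)

lemma add_ne_zero {P Q : G} (h : D.ξ P ≠ D.ξ Q) : P + Q ≠ 0 := by
  intro h0
  apply h
  rw [eq_neg_of_add_eq_zero_left h0, D.ξ_neg]

lemma sub_ne_zero' {P Q : G} (h : D.ξ P ≠ D.ξ Q) : P - Q ≠ 0 := by
  intro h0
  apply h
  rw [sub_eq_zero.mp h0]

lemma sub_formula {P Q : G} (hP : P ≠ 0) (hQ : Q ≠ 0) (h : D.ξ P ≠ D.ξ Q) :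
    4 * D.ξ (P - Q) * (D.ξ P - D.ξ Q) ^ 2 =
      (D.ψ P + D.ψ Q) ^ 2 - (D.B + 4 * D.ξ P + 4 * D.ξ Q) * (D.ξ P - D.ξ Q) ^ 2 := by
  have := D.add_formula P (-Q) hP (neg_ne_zero.mpr hQ) (by rwa [D.ξ_neg])
  rw [D.ξ_neg, D.ψ_neg, ← sub_eq_add_neg, sub_neg_eq_add] at this
  exact this

/-- sum formula -/
lemma sum_formula {P Q : G} (hP : P ≠ 0) (hQ : Q ≠ 0) (h : D.ξ P ≠ D.ξ Q) :
    (D.ξ (P + Q) + D.ξ (P - Q)) * (D.ξ P - D.ξ Q) ^ 2 =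
      2 * (D.ξ P + D.ξ Q) * (D.ξ P * D.ξ Q + D.c) + D.B * (D.ξ P * D.ξ Q) := by
  have h1 := D.add_formula P Q hP hQ h
  have h2 := D.sub_formula hP hQ h
  have h3 := D.ψ_sq P hP
  have h4 := D.ψ_sq Q hQ
  have h40 : (4 : K) ≠ 0 := by
    have := D.two_ne
    intro h; apply this
    have h' : (2 : K) * 2 = 0 := by linear_combination h
    exact (mul_self_eq_zero.mp h')
  apply mul_left_cancel₀ h40
  linear_combination h1 + h2 + 2 * h3 + 2 * h4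

/-- product formula -/
lemma prod_formula {P Q : G} (hP : P ≠ 0) (hQ : Q ≠ 0) (h : D.ξ P ≠ D.ξ Q) :
    (D.ξ (P + Q) * D.ξ (P - Q)) * (D.ξ P - D.ξ Q) ^ 2 = (D.ξ P * D.ξ Q - D.c) ^ 2 := by
  have h1 := D.add_formula P Q hP hQ h
  have h2 := D.sub_formula hP hQ h
  have h3 := D.ψ_sq P hP
  have h4 := D.ψ_sq Q hQ
  have h40 : (4 : K) ≠ 0 := by
    have := D.two_ne
    intro h; apply this
    have h' : (2 : K) * 2 = 0 := by linear_combination h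
    exact (mul_self_eq_zero.mp h')
  have hd : (D.ξ P - D.ξ Q) ^ 2 ≠ 0 := pow_ne_zero 2 (sub_ne_zero.mpr h)
  apply mul_left_cancel₀ (mul_ne_zero (mul_ne_zero h40 h40) hd)
  have e1 : (D.ψ P - D.ψ Q) ^ 2 * (D.ψ P + D.ψ Q) ^ 2 = (D.ψ P ^ 2 - D.ψ Q ^ 2) ^ 2 := by ring
  have e2 : (D.ψ P - D.ψ Q) ^ 2 + (D.ψ P + D.ψ Q) ^ 2 = 2 * (D.ψ P ^ 2 + D.ψ Q ^ 2) := by ring
  rw [h3, h4] at e1 e2
  linear_combination (4 * D.ξ (P - Q) * (D.ξ P - D.ξ Q) ^ 2) * h1 +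
    ((D.ψ P - D.ψ Q) ^ 2 - (D.B + 4 * D.ξ P + 4 * D.ξ Q) * (D.ξ P - D.ξ Q) ^ 2) * h2 + e1 -
    (D.B + 4 * D.ξ P + 4 * D.ξ Q) * (D.ξ P - D.ξ Q) ^ 2 * e2

/-- translation by the 2-torsion point `T` with `ξ T = 0` -/
lemma trans_formula {P T : G} (hP : P ≠ 0) (hT : T ≠ 0) (hξT : D.ξ T = 0) (h : D.ξ P ≠ 0) :
    D.ξ (P + T) * D.ξ P = D.c := by
  have h1 := D.add_formula P T hP hT (by rwa [hξT])
  have h3 := D.ψ_sq P hP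
  have h4 := D.ψ_sq T hT
  rw [hξT] at h4 h1
  have hψT : D.ψ T = 0 := by
    have : D.ψ T ^ 2 = 0 := by rw [h4]; ring
    exact pow_eq_zero_iff (two_ne_zero) |>.mp this
  rw [hψT] at h1
  have h40 : (4 : K) ≠ 0 := by
    have := D.two_ne
    intro h; apply this
    have h' : (2 : K) * 2 = 0 := by linear_combination h
    exact (mul_self_eq_zero.mp h')
  apply mul_left_cancel₀ (mul_ne_zero h40 h)
  linear_combination h1 + h3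

lemma two_T {T : G} (hT : T ≠ 0) (hξT : D.ξ T = 0) : T + T = 0 := by
  have h4 := D.ψ_sq T hT
  rw [hξT] at h4
  have hψT : D.ψ T = 0 := by
    have : D.ψ T ^ 2 = 0 := by rw [h4]; ring
    exact pow_eq_zero_iff (two_ne_zero) |>.mp this
  exact (D.ψ_eq_zero_iff T hT).mpr hψT

lemma eq_T_of_ξ_eq_zero {Q T : G} (hQ : Q ≠ 0) (hT : T ≠ 0) (hξT : D.ξ T = 0)
    (h : D.ξ Q = 0) : Q = T := by
  rcases D.eq_or_neg Q T hQ hT (by rw [h, hξT]) with h | h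
  · exact h
  · rw [h]; exact (eq_neg_of_add_eq_zero_left (D.two_T hT hξT)).symm

end XiData

end Fermat.Agent.S05
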