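import Fermat.Agent.S05.Formulas
import Fermat.Agent.S05.XiData

/-!
# The `XiData` attached to a Weierstrass curve with a rational 2-torsion abscissa `e`
-/

set_option autoImplicit false
set_option linter.unusedSectionVars false

namespace Fermat.Agent.S05

open WeierstrassCurve WeierstrassCurve.Affine

variable {K : Type*} [Field K] [DecidableEq K] (W : WeierstrassCurve.Affine K)

/-- The `XiData` of `W` with respect to the root `e` of the 2-division polynomial. -/
noncomputable def xiDataOfCurve (h2 : (2 : K) ≠ 0) (e c : K)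
    (he : 4 * e ^ 3 + W.b₂ * e ^ 2 + 2 * W.b₄ * e + W.b₆ = 0)
    (hc : 2 * c = 6 * e ^ 2 + W.b₂ * e + W.b₄) : XiData K W.Point where
  ξ P := xc P - e
  ψ := ps
  B := 12 * e + W.b₂
  c := c
  two_ne := h2
  ξ_neg P := by rw [xc_neg]
  ψ_neg := ps_neg
  ψ_sq P hP := by
    rw [ps_sq hP]
    linear_combination he + (-2 * (xc P - e)) * hc
  eq_or_neg P Q hP hQ h := eq_or_eq_neg_of_xc_eq hP hQ (by linear_combination h)
  add_formula P Q hP hQ h := by
    have hne : xc P ≠ xc Q := fun h' => h (by rw [h'])
    have := (xc_add hP hQ hne).2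
    linear_combination this
  dbl_formula P hP h2P := by
    have h1 := xc_add_self hP h2P
    have h3 := ps_sq hP
    have h40 : (4 : K) ≠ 0 := by
      intro h; apply h2
      have h' : (2 : K) * 2 = 0 := by linear_combination h
      exact (mul_self_eq_zero.mp h')
    have hb := W.b_relation
    apply mul_left_cancel₀ h40
    linear_combination 4 * h1 - 4 * e * h3 +
      (4 * (xc P - e) ^ 2 - (6 * e ^ 2 + W.b₂ * e + W.b₄) - 2 * c) * hc - hb -
      (8 * xc P + W.b₂ + 4 * e) * he
  ψ_eq_zero_iff P hP := add_self_eq_zero_iff hP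

/-- the 2-torsion point with abscissa `e` -/
lemma exists_T (h2 : (2 : K) ≠ 0) (e c : K)
    (he : 4 * e ^ 3 + W.b₂ * e ^ 2 + 2 * W.b₄ * e + W.b₆ = 0)
    (hc : 2 * c = 6 * e ^ 2 + W.b₂ * e + W.b₄) (hc0 : c ≠ 0) :
    ∃ T : W.Point, T ≠ 0 ∧ xc T = e := by
  have h40 : (4 : K) ≠ 0 := by
    intro h; apply h2
    have h' : (2 : K) * 2 = 0 := by linear_combination h
    exact (mul_self_eq_zero.mp h')
  obtain ⟨y, hy⟩ : ∃ y : K, 2 * y + W.a₁ * e + W.a₃ = 0 :=
    ⟨-(W.a₁ * e + W.a₃) / 2, by field_simp; ring⟩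
  have hns : W.Nonsingular e y := by
    rw [nonsingular_iff']
    constructor
    · rw [equation_iff]
      simp only [WeierstrassCurve.b₂, WeierstrassCurve.b₄, WeierstrassCurve.b₆] at he
      apply mul_left_cancel₀ h40
      linear_combination (2 * y + W.a₁ * e + W.a₃) * hy - he
    · left
      intro h0
      apply hc0
      simp only [WeierstrassCurve.b₂, WeierstrassCurve.b₄] at hc
      have : 2 * c = 0 := by
        linear_combination hc - 2 * h0 + W.a₁ * hy
      rcases mul_eq_zero.mp this with h | h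
      · exact absurd h h2
      · exact h
  exact ⟨Point.some e y hns, Point.some_ne_zero _, rfl⟩

end Fermat.Agent.S05
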