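import Fermat.Agent.S05.XiData

/-!
# (F2): torsion points of order prime to the residue characteristic have integral `ξ`
-/

set_option autoImplicit false

namespace Fermat.Agent.S05

universe u v

section Nonunits

variable {K : Type u} [Field K] (A : ValuationSubring K)

lemma nu_add {x y : K} (hx : x ∈ A.nonunits) (hy : y ∈ A.nonunits) : x + y ∈ A.nonunits := by
  rw [ValuationSubring.mem_nonunits_iff] at *
  exact Valuation.map_add_lt _ hx hy

lemma nu_neg {x : K} (hx : x ∈ A.nonunits) : -x ∈ A.nonunits := by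
  rw [ValuationSubring.mem_nonunits_iff] at *
  rwa [Valuation.map_neg]

lemma nu_sub {x y : K} (hx : x ∈ A.nonunits) (hy : y ∈ A.nonunits) : x - y ∈ A.nonunits := by
  rw [sub_eq_add_neg]
  exact nu_add A hx (nu_neg A hy)

lemma nu_mul {x y : K} (hx : x ∈ A.nonunits) (hy : y ∈ A) : x * y ∈ A.nonunits := by
  rw [ValuationSubring.mem_nonunits_iff] at *
  rw [map_mul]
  exact mul_lt_one_of_lt_of_le hx ((A.valuation_le_one_iff y).mpr hy)

lemma nu_mul' {x y : K} (hx : x ∈ A) (hy : y ∈ A.nonunits) : x * y ∈ A.nonunits := by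
  rw [mul_comm]
  exact nu_mul A hy hx

lemma nu_mem {x : K} (hx : x ∈ A.nonunits) : x ∈ A := by
  rw [ValuationSubring.mem_nonunits_iff] at hx
  exact (A.valuation_le_one_iff x).mp hx.le

lemma nu_inv_of_not_mem {x : K} (hx : x ∉ A) : x⁻¹ ∈ A.nonunits := by
  rw [ValuationSubring.mem_nonunits_iff, map_inv₀]
  rw [← A.valuation_le_one_iff, not_le] at hx
  exact inv_lt_one_of_one_lt₀ hx

lemma nu_val_one_sub {e : K} (he : e ∈ A.nonunits) : A.valuation (1 - e) = 1 := by
  rw [ValuationSubring.mem_nonunits_iff] at he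
  exact A.valuation.map_one_sub_of_lt he

lemma nu_one_sub_ne_zero {e : K} (he : e ∈ A.nonunits) : 1 - e ≠ 0 := by
  intro h
  have := nu_val_one_sub A he
  rw [h, map_zero] at this
  exact zero_ne_one this

lemma nu_inv_mem_of_val_one {u : K} (hu : A.valuation u = 1) : u⁻¹ ∈ A := by
  rw [← A.valuation_le_one_iff, map_inv₀, hu, inv_one]

lemma nu_mem_of_sub {t a : K} (ha : a ∈ A) (h : t - a ∈ A.nonunits) : t ∈ A := by
  have : t = (t - a) + a := by ring
  rw [this]
  exact A.add_mem _ _ (nu_mem A h) ha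

lemma nu_of_pow {x : K} {n : ℕ} (h : x ^ n ∈ A.nonunits) : x ∈ A.nonunits := by
  rw [ValuationSubring.mem_nonunits_iff] at *
  rw [map_pow] at h
  by_contra hx
  rw [not_lt] at hx
  exact absurd (one_le_pow₀ hx) (not_le.mpr h)

/-- The field-theoretic content of the doubling step. -/
lemma nu_dbl_step {B c x z ψ2 : K} (hB : B ∈ A) (hc : c ∈ A) (hx : x ∉ A)
    (hψ : ψ2 = 4 * x ^ 3 + B * x ^ 2 + 4 * c * x) (hdbl : z * ψ2 = (x ^ 2 - c) ^ 2) :
    z ≠ 0 ∧ x / z - 4 ∈ A.nonunits := by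
  have hx0 : x ≠ 0 := by
    rintro rfl
    exact hx A.zero_mem
  have hw : x⁻¹ ∈ A.nonunits := nu_inv_of_not_mem A hx
  set w := x⁻¹ with hwdef
  have hxw : x * w = 1 := mul_inv_cancel₀ hx0
  have hwA : w ∈ A := nu_mem A hw
  have he : c * w ^ 2 ∈ A.nonunits := by
    have : c * w ^ 2 = w * (c * w) := by ring
    rw [this]
    exact nu_mul A hw (A.mul_mem _ _ hc hwA)
  set e := c * w ^ 2 with hedef
  have heA : e ∈ A := nu_mem A he
  have h1e : 1 - e ≠ 0 := nu_one_sub_ne_zero A he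
  have hfac : x ^ 2 - c = x ^ 2 * (1 - e) := by
    rw [hedef]
    linear_combination (c * (x * w + 1)) * hxw
  have hne : (x ^ 2 - c) ^ 2 ≠ 0 := by
    rw [hfac]
    exact pow_ne_zero 2 (mul_ne_zero (pow_ne_zero 2 hx0) h1e)
  have hz : z ≠ 0 := by
    rintro rfl
    rw [zero_mul] at hdbl
    exact hne hdbl.symm
  refine ⟨hz, ?_⟩
  have hu : A.valuation ((1 - e) ^ 2) = 1 := by
    rw [map_pow, nu_val_one_sub A he, one_pow]
  have huinv : ((1 - e) ^ 2)⁻¹ ∈ A := nu_inv_mem_of_val_one A hu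
  have h2A : (2 : K) ∈ A := by
    have : (2 : K) = 1 + 1 := by norm_num
    rw [this]; exact A.add_mem _ _ A.one_mem A.one_mem
  have h4A : (4 : K) ∈ A := by
    have : (4 : K) = 2 + 2 := by norm_num
    rw [this]; exact A.add_mem _ _ h2A h2A
  have hkey : x / z - 4 = ((1 - e) ^ 2)⁻¹ * (w * B + e * 4 + e * (4 * (2 - e))) := by
    have hu0 : (1 - e) ^ 2 ≠ 0 := pow_ne_zero 2 h1e
    rw [eq_inv_mul_iff_mul_eq₀ hu0]
    have h1 : x / z * (1 - e) ^ 2 = 4 + B * w + 4 * e := by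
      have hx4 : x ^ 4 ≠ 0 := pow_ne_zero 4 hx0
      apply mul_left_cancel₀ (mul_ne_zero hz hx4)
      have e1 : z * x ^ 4 * (x / z * (1 - e) ^ 2) = x * (x ^ 2 * (1 - e)) ^ 2 := by
        field_simp
      rw [e1, ← hfac, ← hdbl, hψ, hedef]
      linear_combination (-(z * x ^ 3 * B) - 4 * z * x ^ 2 * c * (x * w + 1)) * hxw
    linear_combination h1
  rw [hkey]
  refine nu_mul' A huinv (nu_add A (nu_add A (nu_mul A hw hB) (nu_mul A he h4A))
    (nu_mul A he (A.mul_mem _ _ h4A (A.sub_mem h2A heA))))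

/-- The field-theoretic content of the induction step. -/
lemma nu_add_step {B c x y zp zm a b : K} (hB : B ∈ A) (hc : c ∈ A) (hx : x ∉ A)
    (ha : a ∈ A) (hy : y ≠ 0) (hya : x / y - a ∈ A.nonunits)
    (hzm : zm ≠ 0) (hzb : x / zm - b ∈ A.nonunits) (hyx : y ≠ x)
    (hsum : (zp + zm) * (y - x) ^ 2 = 2 * (y + x) * (y * x + c) + B * (y * x))
    (hprod : (zp * zm) * (y - x) ^ 2 = (y * x - c) ^ 2) :
    zp ≠ 0 ∧ x / zp - (2 * (1 + a) - b) ∈ A.nonunits := by
  have hx0 : x ≠ 0 := by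
    rintro rfl
    exact hx A.zero_mem
  have hw : x⁻¹ ∈ A.nonunits := nu_inv_of_not_mem A hx
  set w := x⁻¹ with hwdef
  have hxw : x * w = 1 := mul_inv_cancel₀ hx0
  have hwA : w ∈ A := nu_mem A hw
  have htA : x / y ∈ A := nu_mem_of_sub A ha hya
  set t := x / y with htdef
  have hty : t * y = x := by rw [htdef]; field_simp
  have he : c * w ^ 2 * t ∈ A.nonunits := by
    have : c * w ^ 2 * t = w * (c * w * t) := by ring
    rw [this]
    exact nu_mul A hw (A.mul_mem _ _ (A.mul_mem _ _ hc hwA) htA)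
  set e := c * w ^ 2 * t with hedef
  have heA : e ∈ A := nu_mem A he
  have h1e : 1 - e ≠ 0 := nu_one_sub_ne_zero A he
  have hyxe : y * x * e = c := by
    rw [hedef]
    linear_combination (c * w ^ 2 * x) * hty + (c * (x * w + 1)) * hxw
  have hfac : y * x - c = y * x * (1 - e) := by
    linear_combination hyxe
  have hne : (y * x - c) ^ 2 ≠ 0 := by
    rw [hfac]
    exact pow_ne_zero 2 (mul_ne_zero (mul_ne_zero hy hx0) h1e)
  have hzp : zp ≠ 0 := by
    rintro rfl
    rw [zero_mul, zero_mul] at hprod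
    exact hne hprod.symm
  refine ⟨hzp, ?_⟩
  have hu : A.valuation ((1 - e) ^ 2) = 1 := by
    rw [map_pow, nu_val_one_sub A he, one_pow]
  have huinv : ((1 - e) ^ 2)⁻¹ ∈ A := nu_inv_mem_of_val_one A hu
  have h2A : (2 : K) ∈ A := by
    have : (2 : K) = 1 + 1 := by norm_num
    rw [this]; exact A.add_mem _ _ A.one_mem A.one_mem
  have key : (zp + zm) * (y * x - c) ^ 2 =
      (2 * (y + x) * (y * x + c) + B * (y * x)) * (zp * zm) := by
    apply mul_right_cancel₀ (pow_ne_zero 2 (sub_ne_zero.mpr hyx))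
    linear_combination (y * x - c) ^ 2 * hsum - (2 * (y + x) * (y * x + c) + B * (y * x)) * hprod
  have h1 : (x / zp + x / zm) * (1 - e) ^ 2 = 2 * (1 + t) * (1 + e) + B * w * t := by
    have hyx0 : y * x ≠ 0 := mul_ne_zero hy hx0
    apply mul_left_cancel₀ (mul_ne_zero (mul_ne_zero hzp hzm) (pow_ne_zero 2 hyx0))
    have e1 : zp * zm * (y * x) ^ 2 * ((x / zp + x / zm) * (1 - e) ^ 2) =
        x * ((zp + zm) * (y * x * (1 - e)) ^ 2) := by
      field_simp
      ring
    rw [e1, ← hfac, key]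
    have e2 : (y * x) * (1 + e) = y * x + c := by linear_combination hyxe
    have e3 : y * (1 + t) = y + x := by linear_combination hty
    have e4 : (y * x) * (w * t) = x := by
      linear_combination (y * t) * hxw + hty
    linear_combination (-(zp * zm * x * 2 * (y + x))) * e2
      - (zp * zm * x * 2 * (y * x) * (1 + e)) * e3 - (zp * zm * (y * x) * B) * e4
  have hkey : x / zp - (2 * (1 + a) - b) =
      ((1 - e) ^ 2)⁻¹ * ((t - a) * 2 + e * (2 * (1 + t)) + w * (B * t) +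
        e * (2 * (1 + a) * (2 - e))) - (x / zm - b) := by
    have hu0 : (1 - e) ^ 2 ≠ 0 := pow_ne_zero 2 h1e
    rw [eq_sub_iff_add_eq, eq_inv_mul_iff_mul_eq₀ hu0]
    linear_combination h1
  rw [hkey]
  refine nu_sub A (nu_mul' A huinv ?_) hzb
  refine nu_add A (nu_add A (nu_add A (nu_mul A hya h2A) (nu_mul A he ?_)) (nu_mul A hw ?_))
    (nu_mul A he ?_)
  · exact A.mul_mem _ _ h2A (A.add_mem _ _ A.one_mem htA)
  · exact A.mul_mem _ _ hB htA
  · exact A.mul_mem _ _ (A.mul_mem _ _ h2A (A.add_mem _ _ A.one_mem ha)) (A.sub_mem h2A heA)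

end Nonunits

namespace XiData

variable {K : Type u} [Field K] {G : Type v} [AddCommGroup G] (D : XiData K G)
  (A : ValuationSubring K)

lemma nsmul_ne_zero_of_lt {p : ℕ} (hp : p.Prime) {P : G} (hP : P ≠ 0) (hpP : p • P = 0)
    {k : ℕ} (hk0 : 0 < k) (hkp : k < p) : k • P ≠ 0 := by
  intro h
  have := Fact.mk hp
  have hord : addOrderOf P = p := addOrderOf_eq_prime hpP hP
  have := addOrderOf_dvd_of_nsmul_eq_zero h
  rw [hord] at this
  exact absurd (Nat.le_of_dvd hk0 this) (not_le.mpr hkp)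

/-- (F2) A nonzero point killed by an odd prime `p` which is a unit in `A` has `ξ P ∈ A`. -/
theorem ξ_mem_of_torsion (hB : D.B ∈ A) (hc : D.c ∈ A) {p : ℕ} (hp : p.Prime) (hp2 : p ≠ 2)
    (hpA : (p : K) ∉ A.nonunits) {P : G} (hP : P ≠ 0) (hpP : p • P = 0) : D.ξ P ∈ A := by
  by_contra hx
  have hp3 : 3 ≤ p := by
    have := hp.two_le
    omega
  have hx0 : D.ξ P ≠ 0 := by
    intro h
    rw [h] at hx
    exact hx A.zero_mem
  have hne : ∀ k : ℕ, 0 < k → k < p → k • P ≠ 0 := fun k h0 h1 =>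
    nsmul_ne_zero_of_lt hp hP hpP h0 h1
  have hnatA : ∀ k : ℕ, (k : K) ∈ A := fun k => natCast_mem A k
  -- the two base cases
  have C1 : D.ξ (1 • P) ≠ 0 ∧ D.ξ P / D.ξ (1 • P) - ((1 : ℕ) : K) ^ 2 ∈ A.nonunits := by
    rw [one_nsmul]
    refine ⟨hx0, ?_⟩
    rw [div_self hx0]
    simp
  have C2 : D.ξ (2 • P) ≠ 0 ∧ D.ξ P / D.ξ (2 • P) - ((2 : ℕ) : K) ^ 2 ∈ A.nonunits := by
    have h2 : P + P ≠ 0 := by
      rw [← two_nsmul]
      exact hne 2 (by norm_num) (by omega)
    have := nu_dbl_step A hB hc hx (D.ψ_sq P hP) (D.dbl_formula P hP h2)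
    rw [two_nsmul]
    refine ⟨this.1, ?_⟩
    have e : (((2 : ℕ) : K)) ^ 2 = 4 := by norm_num
    rw [e]
    exact this.2
  have step : ∀ k : ℕ, k + 2 ≤ p - 1 →
      (D.ξ ((k + 1) • P) ≠ 0 ∧
        D.ξ P / D.ξ ((k + 1) • P) - ((k + 1 : ℕ) : K) ^ 2 ∈ A.nonunits) ∧
      (D.ξ ((k + 2) • P) ≠ 0 ∧
        D.ξ P / D.ξ ((k + 2) • P) - ((k + 2 : ℕ) : K) ^ 2 ∈ A.nonunits) := by
    intro k
    induction k with
    | zero => intro _; exact ⟨C1, C2⟩
    | succ k ih =>
      intro hk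
      obtain ⟨ihm, ih0⟩ := ih (by omega)
      refine ⟨ih0, ?_⟩
      have hQ : (k + 2) • P ≠ 0 := hne _ (by omega) (by omega)
      have hξne : D.ξ ((k + 2) • P) ≠ D.ξ P := by
        intro h
        rcases D.eq_or_neg _ _ hQ hP h with h | h
        · apply hne (k + 1) (by omega) (by omega)
          have : (k + 2) • P = (k + 1) • P + P := succ_nsmul P (k + 1)
          rw [this] at h
          exact add_eq_right.mp h
        · apply hne (k + 3) (by omega) (by omega)
          have : (k + 3) • P = (k + 2) • P + P := succ_nsmul P (k + 2)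
          rw [this, h]
          exact neg_add_cancel P
      have hs := D.sum_formula hQ hP hξne
      have hpr := D.prod_formula hQ hP hξne
      have ea : (k + 2) • P + P = (k + 1 + 2) • P := (succ_nsmul P (k + 2)).symm
      have es : (k + 2) • P - P = (k + 1) • P := by
        rw [sub_eq_iff_eq_add]
        exact succ_nsmul P (k + 1)
      rw [ea, es] at hs hpr
      have := nu_add_step A hB hc hx (A.pow_mem (hnatA (k + 2)) 2) ih0.1 ih0.2 ihm.1 ihm.2 hξne
        hs hpr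
      refine ⟨this.1, ?_⟩
      have e : ((k + 1 + 2 : ℕ) : K) ^ 2 =
          2 * (1 + ((k + 2 : ℕ) : K) ^ 2) - ((k + 1 : ℕ) : K) ^ 2 := by
        push_cast
        ring
      rw [e]
      exact this.2
  -- apply with `k = p - 3`
  obtain ⟨q, rfl⟩ : ∃ q, p = q + 3 := ⟨p - 3, by omega⟩
  obtain ⟨hm, h0⟩ := step q (by omega)
  -- `(q+2) • P = -P`, `(q+1) • P = -(2 • P)`
  have e1 : (q + 2) • P = -P := by
    rw [eq_neg_iff_add_eq_zero, ← succ_nsmul]
    exact hpP
  have e2 : (q + 1) • P = -(2 • P) := by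
    rw [eq_neg_iff_add_eq_zero, ← add_nsmul]
    exact hpP
  rw [e1, D.ξ_neg, div_self hx0] at h0
  rw [e2, D.ξ_neg] at hm
  have h4 := nu_sub A C2.2 hm.2
  apply hpA
  apply nu_of_pow A (n := 2)
  have : ((q + 3 : ℕ) : K) ^ 2 =
      (-2) * (1 - ((q + 2 : ℕ) : K) ^ 2) +
      -(D.ξ P / D.ξ (2 • P) - ((2 : ℕ) : K) ^ 2 -
        (D.ξ P / D.ξ (2 • P) - ((q + 1 : ℕ) : K) ^ 2)) := by
    push_cast
    ring
  rw [this]
  refine nu_add A (nu_mul' A ?_ h0.2) (nu_neg A h4)
  exact A.neg_mem _ (by exact_mod_cast hnatA 2)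

end XiData

end Fermat.Agent.S05
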