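import Mathlib.RingTheory.Valuation.ValuationSubring
import Mathlib.Tactic

/-!
# Small helper lemmas on valuation subrings
-/

set_option autoImplicit false

namespace Fermat.Agent.S05

variable {K : Type*} [Field K] (A : ValuationSubring K)

lemma nonunits_mul_mem {x y : K} (hx : x ∈ A.nonunits) (hy : y ∈ A) : x * y ∈ A.nonunits := by
  rw [A.mem_nonunits_iff] at hx ⊢
  rw [map_mul]
  exact mul_lt_one_of_lt_of_le hx ((A.valuation_le_one_iff y).mpr hy)

lemma mem_mul_nonunits {x y : K} (hx : x ∈ A) (hy : y ∈ A.nonunits) : x * y ∈ A.nonunits := by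
  rw [mul_comm]; exact nonunits_mul_mem A hy hx

lemma mem_of_nonunits {x : K} (hx : x ∈ A.nonunits) : x ∈ A := A.nonunits_subset hx

lemma val_one_sub {x : K} (hx : x ∈ A.nonunits) : A.valuation (1 - x) = 1 :=
  Valuation.map_one_sub_of_lt _ (A.mem_nonunits_iff.mp hx)

lemma val_one_add {x : K} (hx : x ∈ A.nonunits) : A.valuation (1 + x) = 1 :=
  Valuation.map_one_add_of_lt _ (A.mem_nonunits_iff.mp hx)

lemma not_nonunits_iff {x : K} : x ∉ A.nonunits ↔ x ≠ 0 ∧ x⁻¹ ∈ A := by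
  rw [A.mem_nonunits_iff_or]; push Not; rfl

lemma val_eq_one_iff {x : K} : A.valuation x = 1 ↔ x ∈ A ∧ x ∉ A.nonunits := by
  rw [A.mem_nonunits_iff, ← A.valuation_le_one_iff, not_lt]
  exact ⟨fun h => ⟨h.le, h.ge⟩, fun h => le_antisymm h.1 h.2⟩

lemma val_ne_zero_of_eq_one {x : K} (h : A.valuation x = 1) : x ≠ 0 := by
  rintro rfl; simp at h

lemma inv_mem_of_val_eq_one {x : K} (h : A.valuation x = 1) : x⁻¹ ∈ A := by
  rw [← A.valuation_le_one_iff, map_inv₀, h, inv_one]

lemma mem_of_val_eq_one {x : K} (h : A.valuation x = 1) : x ∈ A := by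
  rw [← A.valuation_le_one_iff, h]

lemma not_nonunits_of_val_eq_one {x : K} (h : A.valuation x = 1) : x ∉ A.nonunits := by
  rw [A.mem_nonunits_iff, h]; exact lt_irrefl _

lemma nonunits_of_pow {x : K} {n : ℕ} (h : x ^ n ∈ A.nonunits) : x ∈ A.nonunits := by
  rw [A.mem_nonunits_iff] at h ⊢
  rw [map_pow] at h
  by_contra hx
  exact absurd h (not_lt.mpr (one_le_pow₀ (not_lt.mp hx)))

end Fermat.Agent.S05
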