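import Fermat.Agent.S05.EZero

/-!
# (M2): the minimal element argument in the multiplicative case
-/

set_option autoImplicit false

namespace Fermat.Agent.S05

universe u v

namespace XiData

variable {K : Type u} [Field K] {G : Type v} [AddCommGroup G] (D : XiData K G)

section core

variable {Γ : Type*} [LinearOrderedCommGroupWithZero Γ] (w : Valuation K Γ)

lemma val_four (h2 : w (2 : K) = 1) : w (4 : K) = 1 := by
  have : (4 : K) = 2 * 2 := by norm_num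
  rw [this, map_mul, h2, one_mul]

/-- valuation of `ψ²` at a point close to the node -/
lemma val_ψ_sq (hB : w D.B = 1) (h2 : w (2 : K) = 1) {R : G} (hR : R ≠ 0)
    (hx0 : D.ξ R ≠ 0) (hx1 : w (D.ξ R) < 1) (hc1 : w D.c < w (D.ξ R)) :
    w (D.ψ R ^ 2) = w (D.ξ R) ^ 2 := by
  have hg0 : 0 < w (D.ξ R) := (w.pos_iff).mpr hx0
  have h4 := val_four w h2
  rw [D.ψ_sq R hR]
  have e1 : w (4 * D.ξ R ^ 3) < w (D.ξ R) ^ 2 := by
    rw [map_mul, h4, one_mul, map_pow]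
    exact pow_lt_pow_right_of_lt_one₀ hg0 hx1 (by norm_num)
  have e2 : w (D.B * D.ξ R ^ 2) = w (D.ξ R) ^ 2 := by rw [map_mul, hB, one_mul, map_pow]
  have e3 : w (4 * D.c * D.ξ R) < w (D.ξ R) ^ 2 := by
    rw [map_mul, map_mul, h4, one_mul, pow_two]
    exact mul_lt_mul_of_pos_right hc1 hg0
  have e4 : w (4 * D.ξ R ^ 3 + D.B * D.ξ R ^ 2) = w (D.ξ R) ^ 2 := by
    rw [Valuation.map_add_eq_of_lt_right _ (by rw [e2]; exact e1), e2]
  rw [Valuation.map_add_eq_of_lt_left _ (by rw [e4]; exact e3), e4]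

lemma val_dbl (hB : w D.B = 1) (h2 : w (2 : K) = 1) {R : G} (hR : R ≠ 0) (hRR : R + R ≠ 0)
    (hx0 : D.ξ R ≠ 0) (hx1 : w (D.ξ R) < 1) (hc1 : w D.c < w (D.ξ R))
    (hc2 : w D.c ≤ w (D.ξ R) ^ 2) (hc3 : w D.c < w (D.ξ (R + R))) :
    w (D.ξ (R + R)) = w (D.ξ R) ^ 2 := by
  have hg0 : 0 < w (D.ξ R) := (w.pos_iff).mpr hx0
  have hψ := D.val_ψ_sq w hB h2 hR hx0 hx1 hc1
  have hd := congrArg w (D.dbl_formula R hR hRR)
  rw [map_mul, hψ, map_pow] at hd
  have hg2 : 0 < w (D.ξ R) ^ 2 := pow_pos hg0 2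
  rcases lt_or_eq_of_le hc2 with h | h
  · have : w (D.ξ R ^ 2 - D.c) = w (D.ξ R) ^ 2 := by
      rw [Valuation.map_sub_eq_of_lt_left _ (by rw [map_pow]; exact h), map_pow]
    rw [this, pow_two (w (D.ξ R) ^ 2)] at hd
    exact mul_right_cancel₀ hg2.ne' hd
  · exfalso
    have : w (D.ξ R ^ 2 - D.c) ≤ w (D.ξ R) ^ 2 :=
      Valuation.map_sub_le _ (by rw [map_pow]) hc2
    have h5 : w (D.ξ (R + R)) * w (D.ξ R) ^ 2 ≤ w (D.ξ R) ^ 2 * w (D.ξ R) ^ 2 := by
      rw [hd, pow_two]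
      exact mul_le_mul' this this
    have h6 : w (D.ξ (R + R)) ≤ w (D.ξ R) ^ 2 := le_of_mul_le_mul_right h5 hg2
    exact absurd (lt_of_lt_of_le hc3 h6) (by rw [h]; exact lt_irrefl _)

lemma val_step {Q R : G} (hQ : Q ≠ 0) (hR : R ≠ 0) {k : ℕ} (hk : 2 ≤ k)
    (hx0 : D.ξ R ≠ 0) (hx1 : w (D.ξ R) < 1)
    (hQk : w (D.ξ Q) = w (D.ξ R) ^ k) (hQ' : w (D.ξ (Q - R)) = w (D.ξ R) ^ (k - 1))
    (hc2 : w D.c ≤ w (D.ξ R) * w (D.ξ Q)) (hc3 : w D.c < w (D.ξ (Q + R))) :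
    w (D.ξ (Q + R)) = w (D.ξ R) ^ (k + 1) := by
  have hg0 : 0 < w (D.ξ R) := (w.pos_iff).mpr hx0
  have hlt : w (D.ξ Q) < w (D.ξ R) := by
    rw [hQk]
    calc w (D.ξ R) ^ k < w (D.ξ R) ^ 1 := pow_lt_pow_right_of_lt_one₀ hg0 hx1 (by omega)
      _ = _ := pow_one _
  have hne : D.ξ Q ≠ D.ξ R := by
    intro h; rw [h] at hlt; exact lt_irrefl _ hlt
  have hsub : w (D.ξ Q - D.ξ R) = w (D.ξ R) := Valuation.map_sub_eq_of_lt_right _ hlt
  have hd := congrArg w (D.prod_formula hQ hR hne)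
  rw [map_mul, map_mul, map_pow, map_pow, hsub, hQ'] at hd
  have hkk : w (D.ξ R) ^ (k - 1) * w (D.ξ R) ^ 2 = w (D.ξ R) ^ (k + 1) := by
    rw [← pow_add]; congr 1; omega
  rw [mul_assoc, hkk] at hd
  have hgk : 0 < w (D.ξ R) ^ (k + 1) := pow_pos hg0 _
  have hc2' : w D.c ≤ w (D.ξ R) ^ (k + 1) := by
    rw [hQk, ← pow_succ'] at hc2; exact hc2
  have hprod : w (D.ξ Q * D.ξ R) = w (D.ξ R) ^ (k + 1) := by
    rw [map_mul, hQk, pow_succ]
  rcases lt_or_eq_of_le hc2' with h | h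
  · have : w (D.ξ Q * D.ξ R - D.c) = w (D.ξ R) ^ (k + 1) := by
      rw [Valuation.map_sub_eq_of_lt_left _ (by rw [hprod]; exact h), hprod]
    rw [this, pow_two] at hd
    exact mul_right_cancel₀ hgk.ne' hd
  · exfalso
    have : w (D.ξ Q * D.ξ R - D.c) ≤ w (D.ξ R) ^ (k + 1) :=
      Valuation.map_sub_le _ hprod.le hc2'
    have h5 : w (D.ξ (Q + R)) * w (D.ξ R) ^ (k + 1) ≤
        w (D.ξ R) ^ (k + 1) * w (D.ξ R) ^ (k + 1) := by
      rw [hd, pow_two]
      exact mul_le_mul' this this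
    have h6 : w (D.ξ (Q + R)) ≤ w (D.ξ R) ^ (k + 1) := le_of_mul_le_mul_right h5 hgk
    exact absurd (lt_of_lt_of_le hc3 h6) (by rw [h]; exact lt_irrefl _)


lemma val_multiples (hB : w D.B = 1) (h2 : w (2 : K) = 1) {p : ℕ} {R : G}
    (hx1 : w (D.ξ R) < 1)
    (hgood : ∀ k : ℕ, ¬ p ∣ k → k • R ≠ 0 ∧ D.ξ (k • R) ≠ 0 ∧
      w D.c ≤ w (D.ξ R) * w (D.ξ (k • R)) ∧ w D.c < w (D.ξ (k • R))) :
    ∀ k : ℕ, 1 ≤ k → k < p → w (D.ξ (k • R)) = w (D.ξ R) ^ k := by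
  intro k
  induction k using Nat.strong_induction_on with
  | _ k ih =>
    intro hk1 hkp
    have hnd : ∀ j : ℕ, 1 ≤ j → j < p → ¬ p ∣ j := fun j h1 h2 =>
      Nat.not_dvd_of_pos_of_lt h1 h2
    have g1 := hgood 1 (hnd 1 le_rfl (by omega))
    rw [one_nsmul] at g1
    obtain ⟨hR, hx0, hc2, hc1⟩ := g1
    rcases Nat.lt_or_ge k 2 with hk | hk
    · have : k = 1 := by omega
      subst this
      rw [one_nsmul, pow_one]
    rcases Nat.lt_or_ge k 3 with hk' | hk'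
    · have : k = 2 := by omega
      subst this
      have g2 := hgood 2 (hnd 2 (by omega) hkp)
      rw [two_nsmul] at g2 ⊢
      exact D.val_dbl w hB h2 hR g2.1 hx0 hx1 hc1 (by rw [pow_two]; exact hc2) g2.2.2.2
    · obtain ⟨j, rfl⟩ : ∃ j, k = j + 1 := ⟨k - 1, by omega⟩
      have gj := hgood j (hnd j (by omega) (by omega))
      have gj1 := hgood (j + 1) (hnd (j + 1) (by omega) hkp)
      have e1 : (j + 1) • R = j • R + R := succ_nsmul R j
      have e2 : j • R - R = (j - 1) • R := by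
        obtain ⟨i, rfl⟩ : ∃ i, j = i + 1 := ⟨j - 1, by omega⟩
        rw [succ_nsmul]; simp
      rw [e1] at gj1 ⊢
      exact D.val_step w gj.1 hR (by omega) hx0 hx1 (ih j (by omega) (by omega) (by omega))
        (by rw [e2]; exact ih (j - 1) (by omega) (by omega) (by omega)) gj.2.2.1 gj1.2.2.2

end core

lemma even_nsmul_T {T : G} (hTT : T + T = 0) {n : ℕ} (hn : Even n) : n • T = 0 := by
  obtain ⟨m, rfl⟩ := hn
  rw [← two_mul, mul_nsmul, two_nsmul, hTT, nsmul_zero]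

lemma odd_nsmul_T {T : G} (hTT : T + T = 0) {n : ℕ} (hn : Odd n) : n • T = T := by
  obtain ⟨m, rfl⟩ := hn
  rw [succ_nsmul, even_nsmul_T hTT (even_two_mul m), zero_add]

variable (A : ValuationSubring K)

/-- (a) of the sketch -/
lemma not_mem_E0_of_not_dvd (hB : D.B ∈ A) (hc : D.c ∈ A.nonunits)
    {p : ℕ} (hp : p.Prime) (hp2 : p ≠ 2) {T : G} (hT : T ≠ 0) (hξT : D.ξ T = 0)
    {P : G} (hP : P ≠ 0) (hpP : p • P = 0) (hPE : D.ξ P ∈ A.nonunits)
    {n : ℕ} (hn : ¬ 2 * p ∣ n) :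
    n • (P + T) ≠ 0 ∧ D.ξ (n • (P + T)) ∈ A.nonunits := by
  have hTT : T + T = 0 := D.two_T hT hξT
  by_contra hcon
  have hmem : n • (P + T) ∈ D.E0 A hB hc := by
    rw [mem_E0]
    by_contra h
    push Not at h
    exact hcon h
  have hPn : P ∉ D.E0 A hB hc := by
    rw [mem_E0]; push Not; exact ⟨hP, hPE⟩
  have hTn : T ∉ D.E0 A hB hc := by
    rw [mem_E0]; push Not
    refine ⟨hT, ?_⟩
    rw [hξT, ValuationSubring.mem_nonunits_iff, map_zero]
    exact zero_lt_one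
  by_cases hpn : p ∣ n
  · have hnP : n • P = 0 := by
      obtain ⟨m, rfl⟩ := hpn
      rw [mul_nsmul, hpP, nsmul_zero]
    rw [nsmul_add, hnP, zero_add] at hmem
    rcases Nat.even_or_odd n with he | ho
    · apply hn
      have hcop : Nat.Coprime 2 p := by
        rw [Nat.coprime_primes Nat.prime_two hp]; exact fun h => hp2 h.symm
      exact hcop.mul_dvd_of_dvd_of_dvd he.two_dvd hpn
    · rw [odd_nsmul_T hTT ho] at hmem
      exact hTn hmem
  · have h2n : (2 * n) • P ∈ D.E0 A hB hc := by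
      have h := (D.E0 A hB hc).add_mem hmem hmem
      have e : n • (P + T) + n • (P + T) = (2 * n) • P := by
        rw [← two_nsmul, ← mul_nsmul', nsmul_add, even_nsmul_T hTT (even_two_mul n), add_zero]
      rwa [e] at h
    have hcop : Nat.Coprime (2 * n) p := by
      apply Nat.Coprime.symm
      rw [Nat.Prime.coprime_iff_not_dvd hp, Nat.Prime.dvd_mul hp]
      push Not
      refine ⟨fun h => hp2 ((Nat.prime_dvd_prime_iff_eq hp Nat.prime_two).mp h), hpn⟩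
    obtain ⟨m, -, hm⟩ := Nat.exists_mul_mod_eq_one_of_coprime hcop hp.one_lt
    have e : m • ((2 * n) • P) = P := by
      rw [← mul_nsmul, ← Nat.div_add_mod (2 * n * m) p, hm, add_nsmul, one_nsmul,
        mul_nsmul, hpP, nsmul_zero, zero_add]
    apply hPn
    rw [← e]
    exact (D.E0 A hB hc).nsmul_mem h2n m

/-- (M2) -/
theorem exists_good_multiple (hB : A.valuation D.B = 1) (hc : D.c ∈ A.nonunits) (_hc0 : D.c ≠ 0)
    (h2 : A.valuation (2 : K) = 1)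
    {p : ℕ} (hp : p.Prime) (hp2 : p ≠ 2) {T : G} (hT : T ≠ 0) (hξT : D.ξ T = 0)
    {P : G} (hP : P ≠ 0) (hpP : p • P = 0) (hPE : D.ξ P ∈ A.nonunits) :
    ∃ n : ℕ, ¬ p ∣ n ∧ n • (P + T) ≠ 0 ∧ D.ξ (n • (P + T)) ≠ 0 ∧
      A.valuation (D.ξ (n • (P + T))) ^ p = A.valuation D.c ∧
      A.valuation D.c < A.valuation (D.ξ (n • (P + T))) := by
  have hBA : D.B ∈ A := (A.valuation_le_one_iff _).mp hB.le
  have hTT : T + T = 0 := D.two_T hT hξT
  have hp3 : 3 ≤ p := by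
    have := hp.two_le
    omega
  have hpodd : Odd p := hp.odd_of_ne_two hp2
  -- (a)
  have ha : ∀ n : ℕ, ¬ 2 * p ∣ n →
      n • (P + T) ≠ 0 ∧ D.ξ (n • (P + T)) ∈ A.nonunits := fun n hn =>
    D.not_mem_E0_of_not_dvd A hBA hc hp hp2 hT hξT hP hpP hPE hn
  have hpT : p • (P + T) = T := by
    rw [nsmul_add, hpP, zero_add, odd_nsmul_T hTT hpodd]
  have h2p : (2 * p) • (P + T) = 0 := by
    rw [mul_nsmul', hpT, two_nsmul, hTT]
  have hper : ∀ n : ℕ, (n % (2 * p)) • (P + T) = n • (P + T) := by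
    intro n
    conv_rhs => rw [← Nat.div_add_mod n (2 * p), add_nsmul, mul_nsmul, h2p, nsmul_zero, zero_add]
  have hnd : ∀ n : ℕ, ¬ p ∣ n → ¬ 2 * p ∣ n := fun n hn h =>
    hn (dvd_trans (Dvd.intro_left 2 rfl) h)
  have hnd' : ∀ n : ℕ, ¬ p ∣ n → ¬ 2 * p ∣ n + p := fun n hn h =>
    hn ((Nat.dvd_add_left (dvd_refl p)).mp (dvd_trans (Dvd.intro_left 2 rfl) h))
  -- (b)
  obtain ⟨n, hnmem, hnmax⟩ := Finset.exists_max_image (Finset.Icc 1 (2 * p - 1))
    (fun n => A.valuation (D.ξ (n • (P + T)))) ⟨1, by rw [Finset.mem_Icc]; omega⟩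
  rw [Finset.mem_Icc] at hnmem
  have hmax : ∀ k : ℕ, ¬ 2 * p ∣ k →
      A.valuation (D.ξ (k • (P + T))) ≤ A.valuation (D.ξ (n • (P + T))) := by
    intro k hk
    have h1 : k % (2 * p) ∈ Finset.Icc 1 (2 * p - 1) := by
      rw [Finset.mem_Icc]
      have h3 : k % (2 * p) < 2 * p := Nat.mod_lt _ (by omega)
      have h4 : k % (2 * p) ≠ 0 := fun h => hk (Nat.dvd_of_mod_eq_zero h)
      omega
    have := hnmax _ h1
    simp only [hper] at this
    exact this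
  -- general facts for multiples prime to `p`
  have hgen : ∀ k : ℕ, ¬ p ∣ k → k • (P + T) ≠ 0 ∧ D.ξ (k • (P + T)) ≠ 0 ∧
      D.ξ (k • (P + T) + T) * D.ξ (k • (P + T)) = D.c ∧
      A.valuation D.c ≤ A.valuation (D.ξ (n • (P + T))) * A.valuation (D.ξ (k • (P + T))) ∧
      A.valuation D.c < A.valuation (D.ξ (k • (P + T))) := by
    intro k hk
    obtain ⟨h0, -⟩ := ha k (hnd k hk)
    have hkT : k • (P + T) + T = (k + p) • (P + T) := by rw [add_nsmul, hpT]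
    obtain ⟨h0', hm'⟩ := ha (k + p) (hnd' k hk)
    have hξ0 : D.ξ (k • (P + T)) ≠ 0 := by
      intro h
      have := D.eq_T_of_ξ_eq_zero h0 hT hξT h
      apply h0'
      rw [← hkT, this, hTT]
    have htr := D.trans_formula h0 hT hξT hξ0
    have hpos : 0 < A.valuation (D.ξ (k • (P + T))) := (A.valuation.pos_iff).mpr hξ0
    refine ⟨h0, hξ0, htr, ?_, ?_⟩
    · rw [← htr, map_mul, hkT]
      exact mul_le_mul_left (hmax _ (hnd' k hk)) _
    · rw [← htr, map_mul, hkT]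
      rw [ValuationSubring.mem_nonunits_iff] at hm'
      calc _ < 1 * A.valuation (D.ξ (k • (P + T))) := mul_lt_mul_of_pos_right hm' hpos
        _ = _ := one_mul _
  have hx0 : D.ξ (n • (P + T)) ≠ 0 := by
    have h1 := (hgen 1 (by
      intro h
      have := Nat.le_of_dvd one_pos h
      omega)).2.1
    have h2 := hmax 1 (by
      intro h
      have := Nat.le_of_dvd one_pos h
      omega)
    have h3 : 0 < A.valuation (D.ξ (1 • (P + T))) := (A.valuation.pos_iff).mpr h1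
    exact (A.valuation.pos_iff).mp (lt_of_lt_of_le h3 h2)
  have hn2p : ¬ 2 * p ∣ n := by
    intro h
    have := Nat.le_of_dvd (by omega) h
    omega
  have hpn : ¬ p ∣ n := by
    intro h
    have hnP : n • P = 0 := by
      obtain ⟨m, rfl⟩ := h
      rw [mul_nsmul, hpP, nsmul_zero]
    rcases Nat.even_or_odd n with he | ho
    · apply (ha n hn2p).1
      rw [nsmul_add, hnP, even_nsmul_T hTT he, add_zero]
    · apply hx0
      rw [nsmul_add, hnP, odd_nsmul_T hTT ho, zero_add, hξT]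
  have hx1 : A.valuation (D.ξ (n • (P + T))) < 1 := (ha n hn2p).2
  have hg0 : 0 < A.valuation (D.ξ (n • (P + T))) := (A.valuation.pos_iff).mpr hx0
  -- (c)
  have hC := D.val_multiples A.valuation hB h2 (p := p) (R := n • (P + T)) hx1 (by
    intro k hk
    have hkn : ¬ p ∣ n * k := by
      rw [Nat.Prime.dvd_mul hp]; push Not; exact ⟨hpn, hk⟩
    have := hgen (n * k) hkn
    rw [mul_nsmul] at this
    exact ⟨this.1, this.2.1, this.2.2.2.1, this.2.2.2.2⟩)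
  have hCp := hC (p - 1) (by omega) (by omega)
  have hsucc : (p - 1) • (n • (P + T)) + n • (P + T) = n • T := by
    rw [← succ_nsmul, Nat.sub_add_cancel (by omega), ← mul_nsmul, mul_comm, mul_nsmul, hpT]
  refine ⟨n, hpn, (ha n hn2p).1, hx0, ?_, (hgen n hpn).2.2.2.2⟩
  rcases Nat.even_or_odd n with he | ho
  · exfalso
    rw [even_nsmul_T hTT he] at hsucc
    rw [eq_neg_of_add_eq_zero_left hsucc, D.ξ_neg] at hCp
    have : A.valuation (D.ξ (n • (P + T))) ^ (p - 1) < A.valuation (D.ξ (n • (P + T))) ^ 1 :=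
      pow_lt_pow_right_of_lt_one₀ hg0 hx1 (by omega)
    rw [← hCp, pow_one] at this
    exact lt_irrefl _ this
  · rw [odd_nsmul_T hTT ho] at hsucc
    have e : (p - 1) • (n • (P + T)) = -(n • (P + T) + T) := by
      rw [eq_sub_of_add_eq hsucc, neg_add, ← eq_neg_of_add_eq_zero_left hTT]
      abel
    rw [e, D.ξ_neg] at hCp
    have htr := (hgen n hpn).2.2.1
    rw [← htr, map_mul, hCp, ← pow_succ, Nat.sub_add_cancel (by omega)]

end XiData

end Fermat.Agent.S05
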