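import Fermat.Agent.S05.Integral
import Fermat.Agent.S05.MinElt

/-!
# (F6) and the abstract main theorem
-/

set_option autoImplicit false

namespace Fermat.Agent.S05

universe u v

namespace XiData

variable {K : Type u} [Field K] {G : Type v} [AddCommGroup G] (D : XiData K G)
  (A : ValuationSubring K)

omit [Field K] in
lemma eq_zero_of_coprime_nsmul {m n : ℕ} {P : G} (h : Nat.Coprime m n) (hm : m • P = 0)
    (hn : n • P = 0) : P = 0 := by
  have h1 := addOrderOf_dvd_of_nsmul_eq_zero hm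
  have h2 := addOrderOf_dvd_of_nsmul_eq_zero hn
  have h3 := Nat.dvd_gcd h1 h2
  rw [h, Nat.dvd_one] at h3
  exact AddMonoid.addOrderOf_eq_one_iff.mp h3

/-- (F6) -/
theorem fixed_of_unit (σ : K →+* K) (τ : G →+ G) (hσ : ∀ a ∈ A, σ a - a ∈ A.nonunits)
    (hτξ : ∀ P, P ≠ 0 → D.ξ (τ P) = σ (D.ξ P)) (hτψ : ∀ P, P ≠ 0 → D.ψ (τ P) = σ (D.ψ P))
    (hτ0 : ∀ P, P ≠ 0 → τ P ≠ 0)
    (hB : D.B ∈ A) (h2 : A.valuation (2 : K) = 1)
    {P : G} (hP : P ≠ 0) (hint : τ P - P ≠ 0 → D.ξ (τ P - P) ∈ A)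
    {g : K} (hg : g ≠ 0) (hσg : σ g = g) (hξ : D.ξ P ∈ A) (hξg : D.ξ P / g ∈ A)
    (hψg : A.valuation (D.ψ P / g) = 1) :
    τ P = P := by
  obtain ⟨a, ha⟩ : ∃ a, a = D.ξ P / g := ⟨_, rfl⟩
  obtain ⟨b, hb⟩ : ∃ b, b = D.ψ P / g := ⟨_, rfl⟩
  rw [← ha] at hξg
  rw [← hb] at hψg
  have hξa : D.ξ P = g * a := by rw [ha]; field_simp
  have hψb : D.ψ P = g * b := by rw [hb]; field_simp
  have hbA : b ∈ A := mem_of_val_eq_one A hψg
  have hδ := hσ a hξg
  have hε := hσ b hbA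
  obtain ⟨δ, hδdef⟩ : ∃ δ, δ = σ a - a := ⟨_, rfl⟩
  obtain ⟨ε, hεdef⟩ : ∃ ε, ε = σ b - b := ⟨_, rfl⟩
  rw [← hδdef] at hδ
  rw [← hεdef] at hε
  have hτP0 := hτ0 P hP
  have h1 : D.ξ (τ P) = g * (a + δ) := by
    rw [hτξ P hP, hξa, map_mul, hσg, hδdef]; ring
  have h2' : D.ψ (τ P) = g * (b + ε) := by
    rw [hτψ P hP, hψb, map_mul, hσg, hεdef]; ring
  have h2b : (2 * b) ∉ A.nonunits := by
    apply not_nonunits_of_val_eq_one
    rw [map_mul, h2, hψg, one_mul]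
  by_cases hδ0 : δ = 0
  · have hx : D.ξ (τ P) = D.ξ P := by rw [h1, hξa, hδ0, add_zero]
    rcases D.eq_or_neg (τ P) P hτP0 hP hx with h | h
    · exact h
    · exfalso
      have h3 : D.ψ (τ P) = - D.ψ P := by rw [h, D.ψ_neg]
      rw [h2', hψb] at h3
      have h4 : 2 * b = -ε := by
        apply mul_left_cancel₀ hg
        linear_combination h3
      apply h2b
      rw [h4]
      exact neg_mem hε
  · exfalso
    have hne : D.ξ (τ P) ≠ D.ξ P := by
      rw [h1, hξa]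
      intro h
      apply hδ0
      have := mul_left_cancel₀ hg h
      linear_combination this
    have hz := hint (D.sub_ne_zero' hne)
    have hf := D.sub_formula hτP0 hP hne
    obtain ⟨z, hzdef⟩ : ∃ z, z = D.ξ (τ P - P) := ⟨_, rfl⟩
    rw [← hzdef] at hz hf
    have hσξ : D.ξ (τ P) ∈ A := by
      have : D.ξ (τ P) = D.ξ P + (σ (D.ξ P) - D.ξ P) := by rw [hτξ P hP]; ring
      rw [this]
      exact add_mem hξ (mem_of_nonunits A (hσ _ hξ))
    obtain ⟨x', hx'⟩ : ∃ x', x' = D.ξ (τ P) := ⟨_, rfl⟩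
    have key : (2 * b + ε) ^ 2 = δ * (δ * (4 * z + D.B + 4 * x' + 4 * D.ξ P)) := by
      have hg2 : g ^ 2 ≠ 0 := pow_ne_zero 2 hg
      apply mul_left_cancel₀ hg2
      have e1 : D.ξ (τ P) - D.ξ P = g * δ := by rw [h1, hξa]; ring
      rw [e1, h2', hψb, ← hx'] at hf
      linear_combination -hf
    rw [← hx'] at hσξ
    have hm : (2 * b + ε) ^ 2 ∈ A.nonunits := by
      rw [key]
      apply nonunits_mul_mem A hδ
      have := mem_of_nonunits A hδ
      apply_rules [add_mem, mul_mem, sub_mem, pow_mem, one_mem, ofNat_mem, natCast_mem, neg_mem]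
    have hm' := nonunits_of_pow A hm
    apply h2b
    have : 2 * b = (2 * b + ε) - ε := by ring
    rw [this]
    exact sub_mem hm' hε

/-- `ψ P` is a unit for torsion points with non-singular reduction. -/
theorem ψ_unit (hB : D.B ∈ A) (hc : D.c ∈ A) (h2 : A.valuation (2 : K) = 1)
    (hdisc : A.valuation (D.B ^ 2 - 64 * D.c) = 1)
    {p : ℕ} (hp : p.Prime) (hp2 : p ≠ 2) (hpA : (p : K) ∉ A.nonunits)
    {P : G} (hP : P ≠ 0) (hpP : p • P = 0)
    (h : D.ξ P ∉ A.nonunits ∨ D.c ∉ A.nonunits) :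
    A.valuation (D.ψ P) = 1 := by
  have hx : D.ξ P ∈ A := D.ξ_mem_of_torsion A hB hc hp hp2 hpA hP hpP
  have h2P : P + P ≠ 0 := by
    intro h0
    apply hP
    apply eq_zero_of_coprime_nsmul (m := 2) (n := p) _ (by rw [two_nsmul]; exact h0) hpP
    exact (Nat.coprime_primes Nat.prime_two hp).mpr (Ne.symm hp2)
  have hz : D.ξ (P + P) ∈ A :=
    D.ξ_mem_of_torsion A hB hc hp hp2 hpA h2P (by rw [smul_add, hpP, add_zero])
  have hsq := D.ψ_sq P hP
  have hdbl := D.dbl_formula P hP h2P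
  obtain ⟨x, hxdef⟩ : ∃ x, x = D.ξ P := ⟨_, rfl⟩
  obtain ⟨z, hzdef⟩ : ∃ z, z = D.ξ (P + P) := ⟨_, rfl⟩
  obtain ⟨y, hydef⟩ : ∃ y, y = D.ψ P := ⟨_, rfl⟩
  rw [← hxdef] at hx hsq hdbl h
  rw [← hzdef] at hz hdbl
  rw [← hydef] at hsq hdbl ⊢
  have hy2A : y ^ 2 ∈ A := by
    rw [hsq]
    apply_rules [add_mem, mul_mem, sub_mem, pow_mem, one_mem, ofNat_mem, natCast_mem, neg_mem]
  have hyle : A.valuation y ≤ 1 := by
    rw [← A.valuation_le_one_iff, map_pow] at hy2A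
    by_contra hlt
    exact absurd hy2A (not_le.mpr (one_lt_pow₀ (not_le.mp hlt) two_ne_zero))
  by_contra hne
  have hym : y ∈ A.nonunits := A.mem_nonunits_iff.mpr (lt_of_le_of_ne hyle hne)
  have hy2m : y ^ 2 ∈ A.nonunits := by
    rw [pow_two]; exact nonunits_mul_mem A hym (mem_of_nonunits A hym)
  have hμ1 : x ^ 2 - D.c ∈ A.nonunits := by
    apply nonunits_of_pow A (n := 2)
    rw [← hdbl]
    exact mem_mul_nonunits A hz hy2m
  have hxu : x ∉ A.nonunits := by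
    intro hxm
    rcases h with h | h
    · exact h hxm
    · apply h
      have : D.c = x * x - (x ^ 2 - D.c) := by ring
      rw [this]
      exact sub_mem (nonunits_mul_mem A hxm hx) hμ1
  obtain ⟨hx0, hxinv⟩ := (not_nonunits_iff A).mp hxu
  have hμ3 : 4 * x ^ 2 + D.B * x + 4 * D.c ∈ A.nonunits := by
    have : 4 * x ^ 2 + D.B * x + 4 * D.c = y ^ 2 * x⁻¹ := by
      rw [hsq]; field_simp
    rw [this]
    exact nonunits_mul_mem A hy2m hxinv
  obtain ⟨μ1, hμ1def⟩ : ∃ μ, μ = x ^ 2 - D.c := ⟨_, rfl⟩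
  obtain ⟨μ3, hμ3def⟩ : ∃ μ, μ = 4 * x ^ 2 + D.B * x + 4 * D.c := ⟨_, rfl⟩
  rw [← hμ1def] at hμ1
  rw [← hμ3def] at hμ3
  have hxv : A.valuation x = 1 := (val_eq_one_iff A).mpr ⟨hx, hxu⟩
  have hcv : A.valuation D.c = 1 := by
    have : D.c = x ^ 2 * (1 - μ1 * (x⁻¹) ^ 2) := by
      rw [hμ1def]; field_simp; ring
    rw [this, map_mul, map_pow, hxv, one_pow, one_mul]
    apply val_one_sub
    exact nonunits_mul_mem A hμ1 (pow_mem hxinv 2)
  have key : D.c * (D.B ^ 2 - 64 * D.c) =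
      μ3 * (μ3 - 4 * μ1 - 16 * D.c) - μ1 * (4 * (μ3 - 4 * μ1 - 16 * D.c) + D.B ^ 2) := by
    rw [hμ1def, hμ3def]; ring
  have hm : D.c * (D.B ^ 2 - 64 * D.c) ∈ A.nonunits := by
    rw [key]
    have h1 := mem_of_nonunits A hμ1
    have h3 := mem_of_nonunits A hμ3
    apply sub_mem
    · apply nonunits_mul_mem A hμ3
      apply_rules [add_mem, mul_mem, sub_mem, pow_mem, one_mem, ofNat_mem, natCast_mem, neg_mem]
    · apply nonunits_mul_mem A hμ1
      apply_rules [add_mem, mul_mem, sub_mem, pow_mem, one_mem, ofNat_mem, natCast_mem, neg_mem]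
  apply not_nonunits_of_val_eq_one A _ hm
  rw [map_mul, hcv, hdisc, one_mul]

theorem main_abstract (σ : K →+* K) (τ : G →+ G) (hσ : ∀ a ∈ A, σ a - a ∈ A.nonunits)
    (hτξ : ∀ P, P ≠ 0 → D.ξ (τ P) = σ (D.ξ P)) (hτψ : ∀ P, P ≠ 0 → D.ψ (τ P) = σ (D.ψ P))
    (hτ0 : ∀ P, P ≠ 0 → τ P ≠ 0)
    (hB : D.B ∈ A) (hc : D.c ∈ A) (h2 : A.valuation (2 : K) = 1)
    {p : ℕ} (hp : p.Prime) (hp2 : p ≠ 2) (hpA : (p : K) ∉ A.nonunits)
    (hdisc : A.valuation (D.B ^ 2 - 64 * D.c) = 1)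
    {T : G} (hT : T ≠ 0) (hξT : D.ξ T = 0)
    {u r : K} (hu : A.valuation u = 1) (hr : r ∈ A) (hr0 : r ≠ 0) (hσr : σ r = r)
    (hcr : D.c = u * r ^ p)
    {P : G} (hpP : p • P = 0) : τ P = P := by
  by_cases hP : P = 0
  · rw [hP, map_zero]
  have hF2 : ∀ Q : G, Q ≠ 0 → p • Q = 0 → D.ξ Q ∈ A :=
    fun Q hQ hpQ => D.ξ_mem_of_torsion A hB hc hp hp2 hpA hQ hpQ
  have hτp : ∀ Q : G, p • Q = 0 → p • (τ Q - Q) = 0 := by
    intro Q hQ
    rw [smul_sub, ← map_nsmul, hQ, map_zero, sub_zero]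
  by_cases hcase : D.ξ P ∉ A.nonunits ∨ D.c ∉ A.nonunits
  · have hψ := D.ψ_unit A hB hc h2 hdisc hp hp2 hpA hP hpP hcase
    apply D.fixed_of_unit A σ τ hσ hτξ hτψ hτ0 hB h2 hP (fun h => hF2 _ h (hτp P hpP))
      one_ne_zero (map_one σ) (hF2 P hP hpP)
    · simpa using hF2 P hP hpP
    · simpa using hψ
  · push Not at hcase
    obtain ⟨hPE, hcm⟩ := hcase
    have hBv : A.valuation D.B = 1 := by
      rw [val_eq_one_iff]
      refine ⟨hB, fun hBm => ?_⟩
      apply not_nonunits_of_val_eq_one A hdisc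
      apply sub_mem
      · rw [pow_two]; exact nonunits_mul_mem A hBm hB
      · exact mem_mul_nonunits A (ofNat_mem A 64) hcm
    have hc0 : D.c ≠ 0 := by
      rw [hcr]; exact mul_ne_zero (val_ne_zero_of_eq_one A hu) (pow_ne_zero _ hr0)
    obtain ⟨n, hpn, hR0, hξR0, hvp, hvc⟩ :=
      D.exists_good_multiple A hBv hcm hc0 h2 hp hp2 hT hξT hP hpP hPE
    obtain ⟨R, hRdef⟩ : ∃ R, R = n • (P + T) := ⟨_, rfl⟩
    rw [← hRdef] at hR0 hξR0 hvp hvc
    have hτT : τ T = T :=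
      D.eq_T_of_ξ_eq_zero (hτ0 T hT) hT hξT (by rw [hτξ T hT, hξT, map_zero])
    have hvr : A.valuation (D.ξ R) = A.valuation r := by
      have : A.valuation (D.ξ R) ^ p = A.valuation r ^ p := by
        rw [hvp, hcr, map_mul, hu, one_mul, map_pow]
      exact (pow_left_inj₀ zero_le' zero_le' hp.ne_zero).mp this
    have hτR : τ R - R = n • (τ P - P) := by
      rw [hRdef, map_nsmul, map_add, hτT, ← smul_sub]
      congr 1
      abel
    have hxA : D.ξ R ∈ A := by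
      rw [← A.valuation_le_one_iff, hvr, A.valuation_le_one_iff]; exact hr
    have hxm : D.ξ R ∈ A.nonunits := by
      rw [A.mem_nonunits_iff]
      by_contra hge
      have h1 : (1 : A.ValueGroup) ≤ A.valuation (D.ξ R) ^ p := one_le_pow₀ (not_lt.mp hge)
      rw [hvp] at h1
      exact absurd (A.mem_nonunits_iff.mp hcm) (not_lt.mpr h1)
    have hcx : D.c / D.ξ R ∈ A.nonunits := by
      rw [A.mem_nonunits_iff, map_div₀]
      exact (div_lt_one₀ (by
        rw [zero_lt_iff, ne_eq, map_eq_zero]; exact hξR0)).mpr hvc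
    have hψv : A.valuation (D.ψ R / r) = 1 := by
      have hsq := D.ψ_sq R hR0
      have hU : A.valuation (D.B + (4 * D.ξ R + 4 * (D.c / D.ξ R))) = 1 := by
        rw [val_eq_one_iff]
        have hm : 4 * D.ξ R + 4 * (D.c / D.ξ R) ∈ A.nonunits :=
          add_mem (mem_mul_nonunits A (ofNat_mem A 4) hxm) (mem_mul_nonunits A (ofNat_mem A 4) hcx)
        refine ⟨add_mem hB (mem_of_nonunits A hm), fun h => ?_⟩
        apply not_nonunits_of_val_eq_one A hBv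
        have : D.B = (D.B + (4 * D.ξ R + 4 * (D.c / D.ξ R))) - (4 * D.ξ R + 4 * (D.c / D.ξ R)) := by
          ring
        rw [this]
        exact sub_mem h hm
      have e : D.ψ R ^ 2 = D.ξ R ^ 2 * (D.B + (4 * D.ξ R + 4 * (D.c / D.ξ R))) := by
        rw [hsq]; field_simp; ring
      have e2 : A.valuation (D.ψ R) ^ 2 = A.valuation r ^ 2 := by
        rw [← map_pow, e, map_mul, hU, mul_one, map_pow, hvr]
      have e3 := (pow_left_inj₀ zero_le' zero_le' two_ne_zero).mp e2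
      rw [map_div₀, e3]
      exact div_self (by rw [ne_eq, map_eq_zero]; exact hr0)
    have hfix : τ R = R := by
      apply D.fixed_of_unit A σ τ hσ hτξ hτψ hτ0 hB h2 hR0 _ hr0 hσr hxA _ hψv
      · intro h
        apply hF2 _ h
        rw [hτR, smul_comm, hτp P hpP, smul_zero]
      · rw [← A.valuation_le_one_iff, map_div₀, hvr]
        exact le_of_eq (div_self (by rw [ne_eq, map_eq_zero]; exact hr0))
    have h0 : n • (τ P - P) = 0 := by rw [← hτR, hfix, sub_self]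
    have := eq_zero_of_coprime_nsmul (((Nat.Prime.coprime_iff_not_dvd hp).mpr hpn).symm) h0
      (hτp P hpP)
    exact sub_eq_zero.mp this

end XiData

end Fermat.Agent.S05
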