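import Fermat.Agent.S05.Curve
import Fermat.Agent.S05.Fix

/-!
# The main theorem for Weierstrass curves with a rational 2-torsion point
-/

set_option autoImplicit false
set_option linter.unusedSectionVars false

namespace Fermat.Agent.S05

open WeierstrassCurve WeierstrassCurve.Affine

variable {F K : Type*} [Field F] [Field K] [DecidableEq K] [Algebra F K]
  (W' : WeierstrassCurve.Affine F)

lemma xc_map (σ : K →ₐ[F] K) (P : (W'⁄K).Point) :
    xc (Point.map (W' := W') σ P) = σ (xc P) := by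
  cases P with
  | zero => exact (map_zero σ).symm
  | some x y h => rfl

lemma ps_map (σ : K →ₐ[F] K) (P : (W'⁄K).Point) :
    ps (Point.map (W' := W') σ P) = σ (ps P) := by
  cases P with
  | zero => exact (map_zero σ).symm
  | some x y h =>
    rw [Point.map_some]
    simp only [ps_some, map_add, map_mul, map_ofNat]
    have h1 : σ ((W'⁄K).a₁) = (W'⁄K).a₁ := σ.commutes _
    have h3 : σ ((W'⁄K).a₃) = (W'⁄K).a₃ := σ.commutes _
    rw [h1, h3]

theorem curve_main (A : ValuationSubring K) (σ : K ≃ₐ[F] K)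
    (hσ : ∀ a ∈ A, σ a - a ∈ A.nonunits)
    (e c u r : F) (he : 4 * e ^ 3 + W'.b₂ * e ^ 2 + 2 * W'.b₄ * e + W'.b₆ = 0)
    (hc : 2 * c = 6 * e ^ 2 + W'.b₂ * e + W'.b₄)
    {p : ℕ} (hp : p.Prime) (hp2 : p ≠ 2) (hpA : (p : K) ∉ A.nonunits)
    (h2 : A.valuation (2 : K) = 1)
    (hB : algebraMap F K (12 * e + W'.b₂) ∈ A) (hcA : algebraMap F K c ∈ A)
    (hdisc : A.valuation (algebraMap F K ((12 * e + W'.b₂) ^ 2 - 64 * c)) = 1)
    (hu : A.valuation (algebraMap F K u) = 1) (hr : algebraMap F K r ∈ A) (hr0 : r ≠ 0)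
    (hcr : c = u * r ^ p)
    (P : (W'⁄K).Point) (hpP : p • P = 0) : Point.map (W' := W') σ.toAlgHom P = P := by
  have h20 : (2 : K) ≠ 0 := val_ne_zero_of_eq_one A h2
  have hb2 : (W'⁄K).b₂ = algebraMap F K W'.b₂ := WeierstrassCurve.map_b₂ _ _
  have hb4 : (W'⁄K).b₄ = algebraMap F K W'.b₄ := WeierstrassCurve.map_b₄ _ _
  have hb6 : (W'⁄K).b₆ = algebraMap F K W'.b₆ := WeierstrassCurve.map_b₆ _ _
  have he' : 4 * (algebraMap F K e) ^ 3 + (W'⁄K).b₂ * (algebraMap F K e) ^ 2 +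
      2 * (W'⁄K).b₄ * (algebraMap F K e) + (W'⁄K).b₆ = 0 := by
    rw [hb2, hb4, hb6]
    have := congrArg (algebraMap F K) he
    simpa [map_ofNat] using this
  have hc' : 2 * (algebraMap F K c) = 6 * (algebraMap F K e) ^ 2 +
      (W'⁄K).b₂ * (algebraMap F K e) + (W'⁄K).b₄ := by
    rw [hb2, hb4]
    have := congrArg (algebraMap F K) hc
    simpa [map_ofNat] using this
  have hc0 : algebraMap F K c ≠ 0 := by
    rw [hcr, map_mul, map_pow]
    exact mul_ne_zero (val_ne_zero_of_eq_one A hu)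
      (pow_ne_zero _ ((map_ne_zero _).mpr hr0))
  obtain ⟨T, hT0, hTe⟩ := exists_T (W'⁄K) h20 _ _ he' hc' hc0
  let D := xiDataOfCurve (W'⁄K) h20 _ _ he' hc'
  have hDB : D.B = algebraMap F K (12 * e + W'.b₂) := by
    show 12 * (algebraMap F K e) + (W'⁄K).b₂ = _
    rw [hb2]; simp [map_ofNat]
  have hDc : D.c = algebraMap F K c := rfl
  refine D.main_abstract A (σ : K →+* K) (Point.map (W' := W') σ.toAlgHom) hσ ?_ ?_ ?_ ?_ ?_ h2
    hp hp2 hpA ?_ hT0 ?_ hu hr ((map_ne_zero _).mpr hr0) ?_ ?_ hpP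
  · intro Q _
    show xc (Point.map (W' := W') σ.toAlgHom Q) - algebraMap F K e = σ (xc Q - algebraMap F K e)
    rw [xc_map, map_sub]
    congr 1
    exact (σ.commutes e).symm
  · intro Q _
    exact ps_map W' σ.toAlgHom Q
  · intro Q hQ h0
    apply hQ
    apply Point.map_injective (W' := W') σ.toAlgHom
    rw [h0, map_zero]
  · rw [hDB]; exact hB
  · exact hcA
  · rw [hDB, hDc]
    simpa [map_ofNat] using hdisc
  · show xc T - algebraMap F K e = 0
    rw [hTe, sub_self]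
  · exact σ.commutes r
  · rw [hDc, hcr, map_mul, map_pow]

end Fermat.Agent.S05
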