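import Fermat.Agent.S05.XiData
import Fermat.Agent.S05.Val

/-!
# The subgroup `E₀` of points with non-singular reduction (multiplicative case)
-/

set_option autoImplicit false

namespace Fermat.Agent.S05

universe u v

namespace XiData

variable {K : Type u} [Field K] {G : Type v} [AddCommGroup G] (D : XiData K G)
  (A : ValuationSubring K)

lemma E0_dbl (hB : D.B ∈ A) (hc : D.c ∈ A.nonunits) {P : G} (hP0 : P ≠ 0)
    (hP : D.ξ P ∉ A.nonunits) (h2 : P + P ≠ 0) : D.ξ (P + P) ∉ A.nonunits := by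
  intro hmem
  obtain ⟨hx0, hω⟩ := (not_nonunits_iff A).mp hP
  have h1 := D.dbl_formula P hP0 h2
  rw [D.ψ_sq P hP0] at h1
  obtain ⟨ω, hωdef⟩ : ∃ ω, ω = (D.ξ P)⁻¹ := ⟨_, rfl⟩
  rw [← hωdef] at hω
  have hxω : D.ξ P * ω = 1 := by rw [hωdef]; exact mul_inv_cancel₀ hx0
  have hcA := mem_of_nonunits A hc
  have key : D.ξ (P + P) * (4 * ω + D.B * ω ^ 2 + 4 * D.c * ω ^ 3) = (1 - D.c * ω ^ 2) ^ 2 := by
    have e1 : D.ξ (P + P) * (4 * ω + D.B * ω ^ 2 + 4 * D.c * ω ^ 3) =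
        D.ξ (P + P) * (4 * D.ξ P ^ 3 + D.B * D.ξ P ^ 2 + 4 * D.c * D.ξ P) * ω ^ 4 := by
      linear_combination (-(D.ξ (P + P)) * (4 * ω * (1 + D.ξ P * ω + (D.ξ P * ω) ^ 2)
        + D.B * ω ^ 2 * (1 + D.ξ P * ω) + 4 * D.c * ω ^ 3)) * hxω
    rw [e1, h1]
    linear_combination (ω ^ 2 * (D.ξ P ^ 2 - D.c) + (1 - D.c * ω ^ 2)) * (D.ξ P * ω + 1) * hxω
  have hL : D.ξ (P + P) * (4 * ω + D.B * ω ^ 2 + 4 * D.c * ω ^ 3) ∈ A.nonunits :=
    nonunits_mul_mem A hmem (by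
      apply_rules [add_mem, mul_mem, sub_mem, pow_mem, one_mem, ofNat_mem, natCast_mem, neg_mem])
  rw [key] at hL
  have := nonunits_of_pow A hL
  exact not_nonunits_of_val_eq_one A (val_one_sub A (nonunits_mul_mem A hc (by
      apply_rules [add_mem, mul_mem, sub_mem, pow_mem, one_mem, ofNat_mem, natCast_mem, neg_mem]))) this

lemma E0_add_generic (hB : D.B ∈ A) (hc : D.c ∈ A.nonunits) {P Q : G} (hP0 : P ≠ 0) (hQ0 : Q ≠ 0)
    (hP : D.ξ P ∉ A.nonunits) (hQ : D.ξ Q ∉ A.nonunits) (hne : D.ξ P ≠ D.ξ Q) :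
    D.ξ (P + Q) ∉ A.nonunits := by
  intro hmem
  obtain ⟨hx0, hω⟩ := (not_nonunits_iff A).mp hP
  obtain ⟨hy0, hη⟩ := (not_nonunits_iff A).mp hQ
  have h1 := D.sum_formula hP0 hQ0 hne
  have h2 := D.prod_formula hP0 hQ0 hne
  obtain ⟨ω, hωdef⟩ : ∃ ω, ω = (D.ξ P)⁻¹ := ⟨_, rfl⟩
  obtain ⟨η, hηdef⟩ : ∃ η, η = (D.ξ Q)⁻¹ := ⟨_, rfl⟩
  rw [← hωdef] at hω
  rw [← hηdef] at hη
  have hx : D.ξ P = ω⁻¹ := by rw [hωdef, inv_inv]
  have hy : D.ξ Q = η⁻¹ := by rw [hηdef, inv_inv]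
  have hω0 : ω ≠ 0 := by rw [hωdef]; exact inv_ne_zero hx0
  have hη0 : η ≠ 0 := by rw [hηdef]; exact inv_ne_zero hy0
  have hcA := mem_of_nonunits A hc
  obtain ⟨z, hz⟩ : ∃ z, z = D.ξ (P + Q) := ⟨_, rfl⟩
  obtain ⟨z', hz'⟩ : ∃ z', z' = D.ξ (P - Q) := ⟨_, rfl⟩
  rw [← hz] at hmem h1 h2
  rw [← hz'] at h1 h2
  rw [hx, hy] at h1 h2
  have key : (1 - D.c * ω * η) ^ 2 =
      z * ((2 * (ω + η) * (1 + D.c * ω * η) + D.B * ω * η) - (η - ω) ^ 2 * z) := by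
    have h1' : (z + z') * (η - ω) ^ 2 = 2 * (ω + η) * (1 + D.c * ω * η) + D.B * ω * η := by
      field_simp at h1
      linear_combination h1
    have h2' : (z * z') * (η - ω) ^ 2 = (1 - D.c * ω * η) ^ 2 := by
      field_simp at h2
      linear_combination h2
    linear_combination (-1 : K) * h2' + z * h1'
  have hL : z * ((2 * (ω + η) * (1 + D.c * ω * η) + D.B * ω * η) - (η - ω) ^ 2 * z) ∈ A.nonunits :=
    nonunits_mul_mem A hmem (by
      have := mem_of_nonunits A hmem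
      apply_rules [add_mem, mul_mem, sub_mem, pow_mem, one_mem, ofNat_mem, natCast_mem, neg_mem])
  rw [← key] at hL
  have := nonunits_of_pow A hL
  refine not_nonunits_of_val_eq_one A (val_one_sub A ?_) this
  rw [mul_assoc]
  exact nonunits_mul_mem A hc (by
      apply_rules [add_mem, mul_mem, sub_mem, pow_mem, one_mem, ofNat_mem, natCast_mem, neg_mem])

/-- closure of `E₀` under addition -/
theorem E0_add (hB : D.B ∈ A) (hc : D.c ∈ A.nonunits) {P Q : G}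
    (hP : P = 0 ∨ D.ξ P ∉ A.nonunits) (hQ : Q = 0 ∨ D.ξ Q ∉ A.nonunits) :
    P + Q = 0 ∨ D.ξ (P + Q) ∉ A.nonunits := by
  by_cases hP0 : P = 0
  · subst hP0; simpa using hQ
  by_cases hQ0 : Q = 0
  · subst hQ0; simpa using hP
  have hP' := hP.resolve_left hP0
  have hQ' := hQ.resolve_left hQ0
  by_cases hne : D.ξ P = D.ξ Q
  · rcases D.eq_or_neg P Q hP0 hQ0 hne with h | h
    · subst h
      by_cases h2 : P + P = 0
      · exact Or.inl h2
      · exact Or.inr (D.E0_dbl A hB hc hP0 hP' h2)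
    · left; rw [h]; simp
  · exact Or.inr (D.E0_add_generic A hB hc hP0 hQ0 hP' hQ' hne)

/-- The subgroup of points not reducing to the node. -/
def E0 (hB : D.B ∈ A) (hc : D.c ∈ A.nonunits) : AddSubgroup G where
  carrier := {P | P = 0 ∨ D.ξ P ∉ A.nonunits}
  add_mem' := fun hP hQ => D.E0_add A hB hc hP hQ
  zero_mem' := Or.inl rfl
  neg_mem' := by
    rintro P (h | h)
    · left; simp [h]
    · right; rwa [D.ξ_neg]

lemma mem_E0 (hB : D.B ∈ A) (hc : D.c ∈ A.nonunits) {P : G} :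
    P ∈ D.E0 A hB hc ↔ P = 0 ∨ D.ξ P ∉ A.nonunits := Iff.rfl

end XiData

end Fermat.Agent.S05
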