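import Mathlib.AlgebraicGeometry.EllipticCurve.Affine.Point
import Mathlib.Tactic

/-!
# Explicit formulas for the group law, in terms of `x` and `ψ₂ = 2y + a₁x + a₃`
-/

set_option autoImplicit false
set_option linter.unusedSectionVars false

namespace Fermat.Agent.S05

open WeierstrassCurve WeierstrassCurve.Affine

variable {K : Type*} [Field K] [DecidableEq K] {W : WeierstrassCurve.Affine K}

/-- x-coordinate (junk value 0 at the origin) -/
def xc : W.Point → K
  | .zero => 0
  | .some x _ _ => x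

/-- `2y + a₁x + a₃` (junk value 0 at the origin) -/
def ps : W.Point → K
  | .zero => 0
  | .some x y _ => 2 * y + W.a₁ * x + W.a₃

@[simp] lemma xc_some {x y : K} (h : W.Nonsingular x y) : xc (Point.some x y h) = x := rfl

@[simp] lemma ps_some {x y : K} (h : W.Nonsingular x y) :
    ps (Point.some x y h) = 2 * y + W.a₁ * x + W.a₃ := rfl

lemma xc_neg (P : W.Point) : xc (-P) = xc P := by
  cases P with
  | zero => rfl
  | some x y h => simp [Point.neg_some]

lemma ps_neg (P : W.Point) : ps (-P) = - ps P := by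
  cases P with
  | zero => simp [← Point.zero_def, ps]
  | some x y h => simp [Point.neg_some, negY]; ring

lemma ps_sq {P : W.Point} (hP : P ≠ 0) :
    ps P ^ 2 = 4 * xc P ^ 3 + W.b₂ * xc P ^ 2 + 2 * W.b₄ * xc P + W.b₆ := by
  cases P with
  | zero => exact absurd rfl hP
  | some x y h =>
    have he := (W.equation_iff x y).mp h.1
    simp only [xc_some, ps_some, WeierstrassCurve.b₂, WeierstrassCurve.b₄, WeierstrassCurve.b₆]
    linear_combination 4 * he

lemma eq_or_eq_neg_of_xc_eq {P Q : W.Point} (hP : P ≠ 0) (hQ : Q ≠ 0) (h : xc P = xc Q) :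
    P = Q ∨ P = -Q := by
  cases P with
  | zero => exact absurd rfl hP
  | some x₁ y₁ h₁ =>
    cases Q with
    | zero => exact absurd rfl hQ
    | some x₂ y₂ h₂ => exact Point.X_eq_iff.mp h

lemma xc_add {P Q : W.Point} (hP : P ≠ 0) (hQ : Q ≠ 0) (hne : xc P ≠ xc Q) :
    P + Q ≠ 0 ∧ 4 * xc (P + Q) * (xc P - xc Q) ^ 2 =
      (ps P - ps Q) ^ 2 - (W.b₂ + 4 * xc P + 4 * xc Q) * (xc P - xc Q) ^ 2 := by
  cases P with
  | zero => exact absurd rfl hP
  | some x₁ y₁ h₁ =>
    cases Q with
    | zero => exact absurd rfl hQ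
    | some x₂ y₂ h₂ =>
      simp only [xc_some] at hne
      rw [Point.add_of_X_ne hne]
      refine ⟨Point.some_ne_zero _, ?_⟩
      simp only [xc_some, ps_some, slope_of_X_ne hne, addX, WeierstrassCurve.b₂]
      have hd : x₁ - x₂ ≠ 0 := sub_ne_zero.mpr hne
      field_simp
      ring

lemma xc_sub {P Q : W.Point} (hP : P ≠ 0) (hQ : Q ≠ 0) (hne : xc P ≠ xc Q) :
    P - Q ≠ 0 ∧ 4 * xc (P - Q) * (xc P - xc Q) ^ 2 =
      (ps P + ps Q) ^ 2 - (W.b₂ + 4 * xc P + 4 * xc Q) * (xc P - xc Q) ^ 2 := by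
  have h := xc_add hP (neg_ne_zero.mpr hQ) (by rwa [xc_neg])
  rw [xc_neg, ps_neg, ← sub_eq_add_neg, sub_neg_eq_add] at h
  exact h

lemma add_self_eq_zero_iff {P : W.Point} (hP : P ≠ 0) : P + P = 0 ↔ ps P = 0 := by
  cases P with
  | zero => exact absurd rfl hP
  | some x y h =>
    rw [add_eq_zero_iff_eq_neg, Point.neg_some, Point.some.injEq]
    simp only [negY, ps_some, true_and]
    constructor
    · intro h; linear_combination h
    · intro h; linear_combination h

lemma xc_add_self {P : W.Point} (hP : P ≠ 0) (h2 : P + P ≠ 0) :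
    xc (P + P) * ps P ^ 2 =
      xc P ^ 4 - W.b₄ * xc P ^ 2 - 2 * W.b₆ * xc P - W.b₈ := by
  have hps : ps P ≠ 0 := fun h => h2 ((add_self_eq_zero_iff hP).mpr h)
  cases P with
  | zero => exact absurd rfl hP
  | some x y h =>
    have he := (W.equation_iff x y).mp h.1
    have hy : y ≠ W.negY x y := by
      intro hy
      apply hps
      simp only [negY] at hy
      simp only [ps_some]
      linear_combination hy
    rw [Point.add_self_of_Y_ne hy]
    simp only [xc_some, ps_some, slope_of_Y_ne rfl hy, addX, negY, WeierstrassCurve.b₄,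
      WeierstrassCurve.b₆, WeierstrassCurve.b₈]
    simp only [ps_some] at hps
    have hden : y - (-y - W.a₁ * x - W.a₃) = 2 * y + W.a₁ * x + W.a₃ := by ring
    rw [hden]
    obtain ⟨d, hd⟩ : ∃ d, d = 2 * y + W.a₁ * x + W.a₃ := ⟨_, rfl⟩
    rw [← hd] at hps ⊢
    field_simp
    rw [hd]
    linear_combination (-(W.a₁ ^ 2 + 4 * W.a₂ + 8 * x)) * he

lemma eq_of_xc_ps (h2 : (2 : K) ≠ 0) {P Q : W.Point} (hP : P ≠ 0) (hQ : Q ≠ 0)
    (hx : xc P = xc Q) (hps : ps P = ps Q) : P = Q := by
  cases P with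
  | zero => exact absurd rfl hP
  | some x₁ y₁ h₁ =>
    cases Q with
    | zero => exact absurd rfl hQ
    | some x₂ y₂ h₂ =>
      simp only [xc_some] at hx
      subst hx
      simp only [ps_some] at hps
      have : y₁ = y₂ := by
        have : 2 * (y₁ - y₂) = 0 := by linear_combination hps
        rcases mul_eq_zero.mp this with h | h
        · exact absurd h h2
        · exact sub_eq_zero.mp h
      subst this
      rfl

end Fermat.Agent.S05
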